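import Fermat.Agent.H29.ES1.GenInterfaces
import Fermat.Agent.H44.Gen11.Bridge
import Fermat.Prelude.Def_ModularCurve_X0ModL

/-!
# P-ES1 / ES1-GEN-c : the holomorphic weight-0 generators `V_a` (helper99)

`Fermat.Agent.H99.ES1.vFunStatement :
  LatSumStatement → LatSumQExpStatement → Fermat.Agent.H29.ES1.VFunStatement`.
-/

set_option autoImplicit false

noncomputable section

open UpperHalfPlane Function Filter ModularForm
open scoped Manifold Topology MatrixGroups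

namespace Fermat.Agent.H99.ES1

open Fermat.Agent.H44 Fermat.Agent.H29.ES1

/-! ### the normalised column sum -/

/-- `(6/(2π)⁴) colSum a`. -/
def gFun (M : ℕ) [NeZero M] (a : ZMod M) : ℍ → ℂ :=
  fun z => (6 : ℂ) / (2 * (Real.pi : ℂ)) ^ 4 * colSum M a z

theorem vFun_eq (M : ℕ) [NeZero M] (a : ZMod M) (z : ℍ) :
    VFun M a z = (E₄ z) ^ 2 * gFun M a z / ModularForm.discriminant z := rfl

theorem mdiff_colSum (h1 : LatSumStatement) (M : ℕ) [NeZero M] (a : ZMod M) :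
    MDiff (colSum M a) := by
  rw [UpperHalfPlane.mdifferentiable_iff]
  have e : colSum M a ∘ ofComplex
      = fun w => ∑ b : ZMod M, (latSum M ![a, b] ∘ ofComplex) w := by
    funext w
    simp only [Function.comp_apply, colSum]
  rw [e]
  apply DifferentiableOn.fun_sum
  intro b _
  exact UpperHalfPlane.mdifferentiable_iff.mp (h1 M ![a, b]).1

theorem mdiff_gFun (h1 : LatSumStatement) (M : ℕ) [NeZero M] (a : ZMod M) :
    MDiff (gFun M a) := by
  have h := mdiff_colSum h1 M a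
  rw [UpperHalfPlane.mdifferentiable_iff] at h ⊢
  have e : gFun M a ∘ ofComplex
      = fun w => (6 : ℂ) / (2 * (Real.pi : ℂ)) ^ 4 * (colSum M a ∘ ofComplex) w := by
    funext w
    simp only [Function.comp_apply, gFun]
  rw [e]
  exact h.const_mul _

theorem bdd_colSum (h1 : LatSumStatement) (M : ℕ) [NeZero M] (a : ZMod M) :
    ∃ C Y : ℝ, ∀ z : ℍ, Y ≤ z.im → ‖colSum M a z‖ ≤ C := by
  classical
  choose C Y hCY using fun b : ZMod M => (h1 M ![a, b]).2.1
  refine ⟨∑ b : ZMod M, C b, ∑ b : ZMod M, |Y b|, fun z hz => ?_⟩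
  unfold colSum
  refine (norm_sum_le _ _).trans (Finset.sum_le_sum fun b _ => ?_)
  apply hCY b z
  have h2 : Y b ≤ |Y b| := le_abs_self _
  have h3 : |Y b| ≤ ∑ b : ZMod M, |Y b| :=
    Finset.single_le_sum (f := fun b => |Y b|) (fun i _ => abs_nonneg _) (Finset.mem_univ b)
  linarith


/-! ### `q`-expansion of the normalised column sum -/

theorem qParam_pow_eq (τ : ℍ) (n : ℕ) :
    Function.Periodic.qParam 1 (τ : ℂ) ^ n
      = Complex.exp (2 * (Real.pi : ℂ) * Complex.I * (n : ℂ) * (τ : ℂ)) := by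
  rw [Function.Periodic.qParam, ← Complex.exp_nat_mul]
  congr 1
  simp only [Complex.ofReal_one, div_one]
  ring

theorem hasSum_gFun (h2 : LatSumQExpStatement) (M : ℕ) [NeZero M] (a : ZMod M) (ha : a ≠ 0)
    (τ : ℍ) :
    HasSum (fun n : ℕ => ((genCoeff M a n : ℤ) : ℂ) • Function.Periodic.qParam 1 (τ : ℂ) ^ n)
      (gFun M a τ) := by
  have h := h2 M a ha τ
  have e : (fun n : ℕ => ((genCoeff M a n : ℤ) : ℂ) • Function.Periodic.qParam 1 (τ : ℂ) ^ n)
      = fun n : ℕ => ((genCoeff M a n : ℤ) : ℂ) *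
        Complex.exp (2 * (Real.pi : ℂ) * Complex.I * (n : ℂ) * (τ : ℂ)) := by
    funext n
    rw [qParam_pow_eq, smul_eq_mul]
  rw [e]
  exact h

theorem periodic_gFun (h2 : LatSumQExpStatement) (M : ℕ) [NeZero M] (a : ZMod M) (ha : a ≠ 0) :
    Function.Periodic (gFun M a ∘ UpperHalfPlane.ofComplex) ((1 : ℝ) : ℂ) := by
  intro w
  by_cases hw : 0 < w.im
  · have hw' : 0 < (w + ((1 : ℝ) : ℂ)).im := by simpa using hw
    simp only [Function.comp_apply, ofComplex_apply_of_im_pos hw,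
      ofComplex_apply_of_im_pos hw']
    have s1 := hasSum_gFun h2 M a ha ⟨w + ((1 : ℝ) : ℂ), hw'⟩
    have s2 := hasSum_gFun h2 M a ha ⟨w, hw⟩
    have e : Function.Periodic.qParam 1 (w + ((1 : ℝ) : ℂ)) = Function.Periodic.qParam 1 w := by
      rw [Complex.ofReal_one, gen11_qParam_add_one]
    have e' : (fun n : ℕ => ((genCoeff M a n : ℤ) : ℂ) •
          Function.Periodic.qParam 1 ((⟨w + ((1 : ℝ) : ℂ), hw'⟩ : ℍ) : ℂ) ^ n)
        = fun n : ℕ => ((genCoeff M a n : ℤ) : ℂ) •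
          Function.Periodic.qParam 1 ((⟨w, hw⟩ : ℍ) : ℂ) ^ n := by
      funext n
      show _ • Function.Periodic.qParam 1 (w + ((1 : ℝ) : ℂ)) ^ n = _ • Function.Periodic.qParam 1 w ^ n
      rw [e]
    rw [e'] at s1
    exact s1.unique s2
  · have hw1 : w.im ≤ 0 := not_lt.mp hw
    have hw' : (w + ((1 : ℝ) : ℂ)).im ≤ 0 := by simpa using hw1
    simp only [Function.comp_apply, ofComplex_apply_of_im_nonpos hw1,
      ofComplex_apply_of_im_nonpos hw']

theorem isNiceFn_gFun (h1 : LatSumStatement) (h2 : LatSumQExpStatement) (M : ℕ) [NeZero M]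
    (a : ZMod M) (ha : a ≠ 0) : IsNiceFn (gFun M a) := by
  refine ⟨periodic_gFun h2 M a ha, mdiff_gFun h1 M a, ?_⟩
  rw [UpperHalfPlane.isBoundedAtImInfty_iff]
  obtain ⟨C, Y, hCY⟩ := bdd_colSum h1 M a
  refine ⟨‖(6 : ℂ) / (2 * (Real.pi : ℂ)) ^ 4‖ * C, Y, fun z hz => ?_⟩
  unfold gFun
  rw [norm_mul]
  exact mul_le_mul_of_nonneg_left (hCY z hz) (norm_nonneg _)

theorem qExpansion_gFun (h1 : LatSumStatement) (h2 : LatSumQExpStatement) (M : ℕ) [NeZero M]
    (a : ZMod M) (ha : a ≠ 0) :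
    qExpansion 1 (gFun M a) = PowerSeries.map (Int.castRingHom ℂ) (genPS M a) := by
  ext n
  rw [PowerSeries.coeff_map, coeff_genPS]
  exact (gen11_qExpansion_coeff_unique (isNiceFn_gFun h1 h2 M a ha).analyticAt
    (hasSum_gFun h2 M a ha) n).symm

/-! ### `1/Δ` -/

/-- `q/Δ`. -/
def qDivDisc : ℍ → ℂ := fun z => qqFn z / ModularForm.discriminant z

theorem isNiceFn_qDivDisc : IsNiceFn qDivDisc := by
  have hD := isNiceFn_discriminant
  have hq := isNiceFn_qqFn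
  refine ⟨fun w => ?_, ?_, isBoundedAtImInfty_qqFn_div_discriminant⟩
  · have h2 := hD.1 w
    have h3 := hq.1 w
    simp only [Function.comp_apply] at h2 h3 ⊢
    unfold qDivDisc
    rw [h2, h3]
  · rw [UpperHalfPlane.mdifferentiable_iff]
    have h2 := UpperHalfPlane.mdifferentiable_iff.mp hD.2.1
    have h3 := UpperHalfPlane.mdifferentiable_iff.mp hq.2.1
    have e : qDivDisc ∘ ofComplex = fun w => (qqFn ∘ ofComplex) w /
        (ModularForm.discriminant ∘ ofComplex) w := by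
      funext w
      simp only [Function.comp_apply, qDivDisc]
    rw [e]
    exact h3.div h2 (fun w _ => ModularForm.discriminant_ne_zero _)

theorem qDivDisc_mul_discriminant : qDivDisc * ModularForm.discriminant = qqFn := by
  funext z
  simp only [Pi.mul_apply, qDivDisc]
  exact div_mul_cancel₀ _ (ModularForm.discriminant_ne_zero z)

theorem qExpansion_qDivDisc :
    qExpansion 1 qDivDisc = PowerSeries.map (Int.castRingHom ℂ) ModularCurve.dedekindEtaUnitInv := by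
  have h := congrArg (qExpansion 1) qDivDisc_mul_discriminant
  rw [isNiceFn_qDivDisc.qExpansion_mul isNiceFn_discriminant, qExpansion_qqFn,
    Fermat.Agent.H17.qExpansion_discriminant_eq] at h
  have h1 : PowerSeries.X * (qExpansion 1 qDivDisc
      * PowerSeries.map (Int.castRingHom ℂ) ModularCurve.dedekindEtaUnit)
      = PowerSeries.X * 1 := by
    calc PowerSeries.X * (qExpansion 1 qDivDisc
          * PowerSeries.map (Int.castRingHom ℂ) ModularCurve.dedekindEtaUnit)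
        = qExpansion 1 qDivDisc * (PowerSeries.X
          * PowerSeries.map (Int.castRingHom ℂ) ModularCurve.dedekindEtaUnit) := by ring
      _ = PowerSeries.X := h
      _ = PowerSeries.X * 1 := (mul_one _).symm
  have h2 := mul_left_cancel₀ PowerSeries.X_ne_zero h1
  have h3 := congrArg (· * PowerSeries.map (Int.castRingHom ℂ) ModularCurve.dedekindEtaUnitInv) h2
  simp only [mul_assoc, gen11_map_unit_mul_inv, mul_one, one_mul] at h3
  exact h3


/-! ### the Laurent relation -/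

theorem coeffEmb_vGen (M : ℕ) (a : ZMod M) :
    ModularCurve.coeffEmb ℂ (vGen M a)
      = HahnSeries.single (-1 : ℤ) (1 : ℂ) *
        HahnSeries.ofPowerSeries ℤ ℂ ((vNum M a).map (Int.castRingHom ℂ)) := by
  rw [vGen, map_mul, ModularCurve.coeffEmb, ModularCurve.coeffMap_single, map_one,
    ModularCurve.coeffMap_ofPowerSeries]
  congr 2

/-- `q · V_a = E₄² · g_a · (q/Δ)`. -/
theorem qqFn_mul_vFun (M : ℕ) [NeZero M] (a : ZMod M) :
    qqFn ^ 1 * VFun M a = (E₄ : ℍ → ℂ) ^ 2 * gFun M a * qDivDisc := by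
  funext z
  simp only [Pi.mul_apply, Pi.pow_apply, pow_one, vFun_eq, qDivDisc]
  ring

theorem laurentRelAt_vFun (h1 : LatSumStatement) (h2 : LatSumQExpStatement) (M : ℕ) [NeZero M]
    (a : ZMod M) (ha : a ≠ 0) :
    LaurentRelAt 1 (VFun M a) (ModularCurve.coeffEmb ℂ (vGen M a)) := by
  have hE := isNiceFn_E₄
  have hg := isNiceFn_gFun h1 h2 M a ha
  have hq := isNiceFn_qDivDisc
  refine ⟨?_, ?_⟩
  · rw [qqFn_mul_vFun]
    exact ((hE.pow 2).mul hg).mul hq
  · rw [qqFn_mul_vFun, ((hE.pow 2).mul hg).qExpansion_mul hq, (hE.pow 2).qExpansion_mul hg,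
      hE.qExpansion_pow, Fermat.Agent.H17.qExpansion_E₄_eq, qExpansion_gFun h1 h2 M a ha,
      qExpansion_qDivDisc, coeffEmb_vGen, ← mul_assoc, HahnSeries.single_mul_single]
    simp [vNum]


/-! ### the action of `SL(2, ℤ)` -/

/-- the automorphy factor, with integer casts as in `LatSumStatement`. -/
def aFac (γ : SL(2, ℤ)) (z : ℍ) : ℂ :=
  (((γ : Matrix (Fin 2) (Fin 2) ℤ) 1 0 : ℤ) : ℂ) * (z : ℂ)
    + (((γ : Matrix (Fin 2) (Fin 2) ℤ) 1 1 : ℤ) : ℂ)

theorem aFac_eq_denom (γ : SL(2, ℤ)) (z : ℍ) : aFac γ z = denom γ z := by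
  rw [ModularGroup.denom_apply]
  rfl

theorem aFac_ne_zero (γ : SL(2, ℤ)) (z : ℍ) : aFac γ z ≠ 0 := by
  rw [aFac_eq_denom]
  exact denom_ne_zero _ z

theorem e4_smul (γ : SL(2, ℤ)) (z : ℍ) : E₄ (γ • z) = aFac γ z ^ 4 * E₄ z := by
  have h := SlashInvariantForm.slash_action_eqn'' (Γ := 𝒮ℒ) E₄ (γ := (γ : GL (Fin 2) ℝ))
    (by exact ⟨γ, rfl⟩) z
  rw [aFac_eq_denom]
  exact h

theorem disc_smul (γ : SL(2, ℤ)) (z : ℍ) :
    ModularForm.discriminant (γ • z) = aFac γ z ^ 12 * ModularForm.discriminant z := by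
  have h := SlashInvariantForm.slash_action_eqn'' (Γ := 𝒮ℒ) CuspForm.discriminant
    (γ := (γ : GL (Fin 2) ℝ)) (by exact ⟨γ, rfl⟩) z
  rw [aFac_eq_denom]
  exact h

/-- the translated normalised column sum. -/
def tFun (M : ℕ) [NeZero M] (a : ZMod M) (γ : SL(2, ℤ)) : ℍ → ℂ :=
  fun z => (6 : ℂ) / (2 * (Real.pi : ℂ)) ^ 4 * ∑ b : ZMod M, latSum M (vecAct M ![a, b] γ) z

theorem colSum_smul (h1 : LatSumStatement) (M : ℕ) [NeZero M] (a : ZMod M) (γ : SL(2, ℤ))
    (z : ℍ) :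
    colSum M a (γ • z) = aFac γ z ^ 4 * ∑ b : ZMod M, latSum M (vecAct M ![a, b] γ) z := by
  unfold colSum
  rw [Finset.mul_sum]
  refine Finset.sum_congr rfl fun b _ => ?_
  exact (h1 M ![a, b]).2.2 γ z

theorem vFun_smul (h1 : LatSumStatement) (M : ℕ) [NeZero M] (a : ZMod M) (γ : SL(2, ℤ))
    (z : ℍ) :
    VFun M a (γ • z) = (E₄ z) ^ 2 * tFun M a γ z / ModularForm.discriminant z := by
  have hD := aFac_ne_zero γ z
  have hΔ := ModularForm.discriminant_ne_zero z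
  rw [vFun_eq, gFun, colSum_smul h1, e4_smul, disc_smul, tFun]
  field_simp


/-! ### `Γ₀(M)` permutes the `V_a` -/

theorem vecAct_apply (M : ℕ) (a b : ZMod M) (γ : SL(2, ℤ)) :
    vecAct M ![a, b] γ
      = ![a * (((γ : Matrix (Fin 2) (Fin 2) ℤ) 0 0 : ℤ) : ZMod M)
            + b * (((γ : Matrix (Fin 2) (Fin 2) ℤ) 1 0 : ℤ) : ZMod M),
          a * (((γ : Matrix (Fin 2) (Fin 2) ℤ) 0 1 : ℤ) : ZMod M)
            + b * (((γ : Matrix (Fin 2) (Fin 2) ℤ) 1 1 : ℤ) : ZMod M)] := by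
  funext j
  fin_cases j <;>
    simp [vecAct, Matrix.vecMul, dotProduct, Fin.sum_univ_two, Matrix.map_apply]

theorem gamma0_units (M : ℕ) (γ : SL(2, ℤ)) (hγ : γ ∈ CongruenceSubgroup.Gamma0 M) :
    (((γ : Matrix (Fin 2) (Fin 2) ℤ) 1 0 : ℤ) : ZMod M) = 0 ∧
    (((γ : Matrix (Fin 2) (Fin 2) ℤ) 0 0 : ℤ) : ZMod M)
      * (((γ : Matrix (Fin 2) (Fin 2) ℤ) 1 1 : ℤ) : ZMod M) = 1 := by
  have hc : (((γ : Matrix (Fin 2) (Fin 2) ℤ) 1 0 : ℤ) : ZMod M) = 0 :=
    CongruenceSubgroup.Gamma0_mem.mp hγ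
  refine ⟨hc, ?_⟩
  have hdet : (γ : Matrix (Fin 2) (Fin 2) ℤ) 0 0 * (γ : Matrix (Fin 2) (Fin 2) ℤ) 1 1
      - (γ : Matrix (Fin 2) (Fin 2) ℤ) 0 1 * (γ : Matrix (Fin 2) (Fin 2) ℤ) 1 0 = 1 := by
    have h := Matrix.SpecialLinearGroup.det_coe γ
    rwa [Matrix.det_fin_two] at h
  have h2 := congrArg (fun t : ℤ => (t : ZMod M)) hdet
  simp only [Int.cast_sub, Int.cast_mul, Int.cast_one, hc, mul_zero, sub_zero] at h2
  exact h2

theorem tFun_gamma0 (M : ℕ) [NeZero M] (a : ZMod M) (γ : SL(2, ℤ))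
    (hγ : γ ∈ CongruenceSubgroup.Gamma0 M) (z : ℍ) :
    tFun M a γ z
      = gFun M ((((γ : Matrix (Fin 2) (Fin 2) ℤ) 0 0 : ℤ) : ZMod M) * a) z := by
  obtain ⟨hc, hu⟩ := gamma0_units M γ hγ
  set α : ZMod M := (((γ : Matrix (Fin 2) (Fin 2) ℤ) 0 0 : ℤ) : ZMod M) with hα
  set β : ZMod M := (((γ : Matrix (Fin 2) (Fin 2) ℤ) 0 1 : ℤ) : ZMod M) with hβ
  set δ : ZMod M := (((γ : Matrix (Fin 2) (Fin 2) ℤ) 1 1 : ℤ) : ZMod M) with hδ
  let e : ZMod M ≃ ZMod M :=
    { toFun := fun b => a * β + b * δ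
      invFun := fun b' => (b' - a * β) * α
      left_inv := fun b => by
        show (a * β + b * δ - a * β) * α = b
        have : (a * β + b * δ - a * β) * α = b * (α * δ) := by ring
        rw [this, hu, mul_one]
      right_inv := fun b' => by
        show a * β + (b' - a * β) * α * δ = b'
        have : a * β + (b' - a * β) * α * δ = a * β + (b' - a * β) * (α * δ) := by ring
        rw [this, hu, mul_one]
        ring }
  unfold tFun gFun colSum
  congr 1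
  refine Fintype.sum_equiv e _ _ fun b => ?_
  rw [vecAct_apply, hc, mul_zero, add_zero, mul_comm a α]
  rfl

theorem vFun_gamma0 (h1 : LatSumStatement) (M : ℕ) [NeZero M] (a : ZMod M) (γ : SL(2, ℤ))
    (hγ : γ ∈ CongruenceSubgroup.Gamma0 M) (z : ℍ) :
    VFun M a (γ • z)
      = VFun M ((((γ : Matrix (Fin 2) (Fin 2) ℤ) 0 0 : ℤ) : ZMod M) * a) z := by
  rw [vFun_smul h1, tFun_gamma0 M a γ hγ, vFun_eq]


/-! ### moderate growth -/

theorem bdd_tFun (h1 : LatSumStatement) (M : ℕ) [NeZero M] (a : ZMod M) (γ : SL(2, ℤ)) :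
    ∃ C Y : ℝ, ∀ z : ℍ, Y ≤ z.im → ‖tFun M a γ z‖ ≤ C := by
  classical
  choose C Y hCY using fun b : ZMod M => (h1 M (vecAct M ![a, b] γ)).2.1
  refine ⟨‖(6 : ℂ) / (2 * (Real.pi : ℂ)) ^ 4‖ * ∑ b : ZMod M, C b, ∑ b : ZMod M, |Y b|,
    fun z hz => ?_⟩
  unfold tFun
  rw [norm_mul]
  refine mul_le_mul_of_nonneg_left ?_ (norm_nonneg _)
  refine (norm_sum_le _ _).trans (Finset.sum_le_sum fun b _ => ?_)
  apply hCY b z
  have h2 : Y b ≤ |Y b| := le_abs_self _
  have h3 : |Y b| ≤ ∑ b : ZMod M, |Y b| :=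
    Finset.single_le_sum (f := fun b => |Y b|) (fun i _ => abs_nonneg _) (Finset.mem_univ b)
  linarith

theorem norm_qqFn (z : ℍ) : ‖qqFn z‖ = Real.exp (-2 * Real.pi * z.im) := by
  rw [qqFn, Function.Periodic.norm_qParam]
  simp

theorem norm_inv_discriminant (z : ℍ) :
    ‖(ModularForm.discriminant z)⁻¹‖ = ‖qDivDisc z‖ * Real.exp (2 * Real.pi * z.im) := by
  have hq : qqFn z ≠ 0 := qqFn_ne_zero z
  have e : (ModularForm.discriminant z)⁻¹ = qDivDisc z * (qqFn z)⁻¹ := by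
    unfold qDivDisc
    field_simp
  rw [e, norm_mul, norm_inv, norm_qqFn, ← Real.exp_neg]
  congr 2
  ring

theorem moderateGrowth_vFun (h1 : LatSumStatement) (M : ℕ) [NeZero M] (a : ZMod M) :
    Fermat.Agent.H94.EsA.HasModerateGrowth (VFun M a) := by
  intro γ
  obtain ⟨CE, AE, hE⟩ := UpperHalfPlane.isBoundedAtImInfty_iff.mp isNiceFn_E₄.2.2
  obtain ⟨Ct, At, ht⟩ := bdd_tFun h1 M a γ
  obtain ⟨Cq, Aq, hq⟩ := UpperHalfPlane.isBoundedAtImInfty_iff.mp isNiceFn_qDivDisc.2.2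
  refine ⟨1, |CE| ^ 2 * |Ct| * |Cq|, |AE| + |At| + |Aq|, by positivity, fun z hz => ?_⟩
  have hzE : AE ≤ z.im := by
    have := le_abs_self AE; have := abs_nonneg At; have := abs_nonneg Aq; linarith
  have hzt : At ≤ z.im := by
    have := le_abs_self At; have := abs_nonneg AE; have := abs_nonneg Aq; linarith
  have hzq : Aq ≤ z.im := by
    have := le_abs_self Aq; have := abs_nonneg AE; have := abs_nonneg At; linarith
  have b1 : ‖E₄ z‖ ≤ |CE| := (hE z hzE).trans (le_abs_self _)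
  have b2 : ‖tFun M a γ z‖ ≤ |Ct| := (ht z hzt).trans (le_abs_self _)
  have b3 : ‖qDivDisc z‖ ≤ |Cq| := (hq z hzq).trans (le_abs_self _)
  rw [vFun_smul h1, div_eq_mul_inv, norm_mul, norm_mul, norm_pow, norm_inv_discriminant]
  have e : (2 * Real.pi * ((1 : ℕ) : ℝ) * z.im) = 2 * Real.pi * z.im := by
    push_cast; ring
  rw [e, ← mul_assoc]
  refine mul_le_mul_of_nonneg_right ?_ (Real.exp_pos _).le
  have b1' : ‖E₄ z‖ ^ 2 ≤ |CE| ^ 2 := pow_le_pow_left₀ (norm_nonneg _) b1 2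
  have : ‖E₄ z‖ ^ 2 * ‖tFun M a γ z‖ ≤ |CE| ^ 2 * |Ct| :=
    mul_le_mul b1' b2 (norm_nonneg _) (by positivity)
  exact mul_le_mul this b3 (norm_nonneg _) (by positivity)

/-! ### the statement -/

theorem mdiff_vFun (h1 : LatSumStatement) (M : ℕ) [NeZero M] (a : ZMod M) :
    MDiff (VFun M a) := by
  have hE := UpperHalfPlane.mdifferentiable_iff.mp isNiceFn_E₄.2.1
  have hg := UpperHalfPlane.mdifferentiable_iff.mp (mdiff_gFun h1 M a)
  have hD := UpperHalfPlane.mdifferentiable_iff.mp isNiceFn_discriminant.2.1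
  rw [UpperHalfPlane.mdifferentiable_iff]
  have e : VFun M a ∘ ofComplex = fun w =>
      (((E₄ : ℍ → ℂ) ∘ ofComplex) w) ^ 2 * (gFun M a ∘ ofComplex) w
        / (ModularForm.discriminant ∘ ofComplex) w := by
    funext w
    simp only [Function.comp_apply, vFun_eq]
  rw [e]
  exact ((hE.pow 2).mul hg).div hD (fun w _ => ModularForm.discriminant_ne_zero _)

/-- **ES1-GEN-c.** -/
theorem vFunStatement (h1 : LatSumStatement) (h2 : LatSumQExpStatement) : VFunStatement := by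
  intro M _ a ha
  exact ⟨mdiff_vFun h1 M a, ⟨1, laurentRelAt_vFun h1 h2 M a ha⟩,
    fun γ hγ z => vFun_gamma0 h1 M a γ hγ z, moderateGrowth_vFun h1 M a⟩

end Fermat.Agent.H99.ES1

end
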